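import Mathlib
import Fermat.Prelude.Def_FLTPrelim_FreyPackage
import Fermat.Prelude.Def_FLTPrelim_Modularity

set_option autoImplicit false
open WeierstrassCurve

namespace Fermat.Agent.S04.Wiring

/-- `4 ∣ b^p - 1 - a^p` for a Frey package. -/
theorem four_dvd (P : FreyPackage) : (4 : ℤ) ∣ P.b ^ P.p - 1 - P.a ^ P.p := by
  have hp5 := P.hp5
  have hodd := P.hp_odd
  have hb : (2 : ℤ) ∣ P.b := (ZMod.intCast_zmod_eq_zero_iff_dvd P.b 2).1 P.hb2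
  have hb4 : (4 : ℤ) ∣ P.b ^ P.p := by
    obtain ⟨k, hk⟩ := hb
    have : P.p = 2 + (P.p - 2) := by omega
    rw [hk, this, pow_add, mul_pow]
    exact ⟨k ^ 2 * (2 * k) ^ (P.p - 2), by ring⟩
  have ha : ((P.a ^ P.p : ℤ) : ZMod 4) = 3 := by
    obtain ⟨j, hj⟩ := hodd
    rw [Int.cast_pow, P.ha4, hj, pow_succ, pow_mul]
    have h9 : ((3 : ZMod 4)) ^ 2 = 1 := by decide
    rw [h9, one_pow, one_mul]
  have hb' : ((P.b ^ P.p : ℤ) : ZMod 4) = 0 :=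
    (ZMod.intCast_zmod_eq_zero_iff_dvd _ 4).2 hb4
  apply (ZMod.intCast_zmod_eq_zero_iff_dvd _ 4).1
  rw [Int.cast_sub, Int.cast_sub, ha, hb', Int.cast_one]
  decide

/-- `16 ∣ -(a^p) * b^p` for a Frey package. -/
theorem sixteen_dvd (P : FreyPackage) : (16 : ℤ) ∣ -(P.a ^ P.p) * (P.b ^ P.p) := by
  have hp5 := P.hp5
  have hb : (2 : ℤ) ∣ P.b := (ZMod.intCast_zmod_eq_zero_iff_dvd P.b 2).1 P.hb2
  obtain ⟨k, hk⟩ := hb
  have : P.p = 4 + (P.p - 4) := by omega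
  rw [hk, this, pow_add (2 * k), mul_pow]
  exact ⟨-(P.a ^ (4 + (P.p - 4))) * (k ^ 4 * (2 * k) ^ (P.p - 4)), by ring⟩

theorem map_freyCurveInt (P : FreyPackage) :
    P.freyCurveInt.map (Int.castRingHom ℚ) = P.freyCurve := by
  have h4 := four_dvd P
  have h16 := sixteen_dvd P
  ext
  · simp [FreyPackage.freyCurveInt, FreyPackage.freyCurve, WeierstrassCurve.map]
  · simp only [FreyPackage.freyCurveInt, FreyPackage.freyCurve, WeierstrassCurve.map]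
    rw [eq_intCast, Int.cast_div h4 (by norm_num)]
    push_cast
    ring
  · simp [FreyPackage.freyCurveInt, FreyPackage.freyCurve, WeierstrassCurve.map]
  · simp only [FreyPackage.freyCurveInt, FreyPackage.freyCurve, WeierstrassCurve.map]
    rw [eq_intCast, Int.cast_div h16 (by norm_num)]
    push_cast
    ring
  · simp [FreyPackage.freyCurveInt, FreyPackage.freyCurve, WeierstrassCurve.map]

theorem freyCurveInt_Δ (P : FreyPackage) :
    256 * P.freyCurveInt.Δ = (P.a ^ P.p) ^ 2 * (P.b ^ P.p) ^ 2 * (P.c ^ P.p) ^ 2 := by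
  obtain ⟨k, hk⟩ := four_dvd P
  obtain ⟨m, hm⟩ := sixteen_dvd P
  have hk' : (P.b ^ P.p - 1 - P.a ^ P.p) / 4 = k := by
    rw [hk]; exact Int.mul_ediv_cancel_left _ (by norm_num)
  have hm' : -(P.a ^ P.p) * (P.b ^ P.p) / 16 = m := by
    rw [hm]; exact Int.mul_ediv_cancel_left _ (by norm_num)
  have hC : P.c ^ P.p = P.a ^ P.p + P.b ^ P.p := P.hFLT.symm
  simp only [WeierstrassCurve.Δ, WeierstrassCurve.b₂, WeierstrassCurve.b₄, WeierstrassCurve.b₆,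
    WeierstrassCurve.b₈, FreyPackage.freyCurveInt, hk', hm', hC]
  calc 256 * (-(1 ^ 2 + 4 * k) ^ 2 * (1 ^ 2 * 0 + 4 * k * 0 - 1 * 0 * m + k * 0 ^ 2 - m ^ 2) -
          8 * (2 * m + 1 * 0) ^ 3 - 27 * (0 ^ 2 + 4 * 0) ^ 2 +
          9 * (1 ^ 2 + 4 * k) * (2 * m + 1 * 0) * (0 ^ 2 + 4 * 0))
      = (16 * m) ^ 2 * ((4 * k + 1) ^ 2 - 4 * (16 * m)) := by ring
    _ = (-(P.a ^ P.p) * (P.b ^ P.p)) ^ 2 *
          ((P.b ^ P.p - 1 - P.a ^ P.p + 1) ^ 2 - 4 * (-(P.a ^ P.p) * (P.b ^ P.p))) := by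
        rw [← hk, ← hm]
    _ = (P.a ^ P.p) ^ 2 * (P.b ^ P.p) ^ 2 * (P.a ^ P.p + P.b ^ P.p) ^ 2 := by ring

theorem freyCurveInt_c₄ (P : FreyPackage) :
    P.freyCurveInt.c₄ = (P.a ^ P.p) ^ 2 + P.a ^ P.p * P.b ^ P.p + (P.b ^ P.p) ^ 2 := by
  obtain ⟨k, hk⟩ := four_dvd P
  obtain ⟨m, hm⟩ := sixteen_dvd P
  have hk' : (P.b ^ P.p - 1 - P.a ^ P.p) / 4 = k := by
    rw [hk]; exact Int.mul_ediv_cancel_left _ (by norm_num)
  have hm' : -(P.a ^ P.p) * (P.b ^ P.p) / 16 = m := by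
    rw [hm]; exact Int.mul_ediv_cancel_left _ (by norm_num)
  simp only [WeierstrassCurve.c₄, WeierstrassCurve.b₂, WeierstrassCurve.b₄,
    FreyPackage.freyCurveInt, hk', hm']
  calc (1 ^ 2 + 4 * k) ^ 2 - 24 * (2 * m + 1 * 0)
      = (4 * k + 1) ^ 2 - 3 * (16 * m) := by ring
    _ = (P.b ^ P.p - 1 - P.a ^ P.p + 1) ^ 2 - 3 * (-(P.a ^ P.p) * (P.b ^ P.p)) := by
        rw [← hk, ← hm]
    _ = (P.a ^ P.p) ^ 2 + P.a ^ P.p * P.b ^ P.p + (P.b ^ P.p) ^ 2 := by ring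

theorem freyCurveInt_Δ_ne_zero (P : FreyPackage) : P.freyCurveInt.Δ ≠ 0 := by
  intro h
  have := freyCurveInt_Δ P
  rw [h, mul_zero] at this
  have h1 : (P.a ^ P.p) ^ 2 * (P.b ^ P.p) ^ 2 * (P.c ^ P.p) ^ 2 ≠ 0 := by
    have := P.ha0; have := P.hb0; have := P.hc0
    positivity
  exact h1 this.symm

theorem freyCurveInt_isSemistableModel (P : FreyPackage) : P.freyCurveInt.IsSemistableModel := by
  intro q hq hΔ hc4
  have hqi : Prime (q : ℤ) := Nat.prime_iff_prime_int.1 hq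
  rw [freyCurveInt_c₄] at hc4
  have hΔ' : (q : ℤ) ∣ (P.a ^ P.p) ^ 2 * (P.b ^ P.p) ^ 2 * (P.c ^ P.p) ^ 2 := by
    rw [← freyCurveInt_Δ]; exact Dvd.dvd.mul_left hΔ _
  have key : ∀ x y : ℤ, gcd x y = 1 → (q : ℤ) ∣ x ^ P.p → (q : ℤ) ∣ y ^ P.p → False := by
    intro x y hxy hx hy
    have hx' := hqi.dvd_of_dvd_pow hx
    have hy' := hqi.dvd_of_dvd_pow hy
    have := dvd_gcd hx' hy'
    rw [hxy] at this
    exact hqi.not_dvd_one this
  have hab : (q : ℤ) ∣ P.a ^ P.p → (q : ℤ) ∣ P.b ^ P.p → False := key _ _ P.hgcdab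
  have hC : P.c ^ P.p = P.a ^ P.p + P.b ^ P.p := P.hFLT.symm
  rcases hqi.dvd_or_dvd hΔ' with h | h
  · rcases hqi.dvd_or_dvd h with h | h
    · have hA := hqi.dvd_of_dvd_pow h
      have hB2 : (q : ℤ) ∣ (P.b ^ P.p) ^ 2 := by
        have : (P.b ^ P.p) ^ 2 = ((P.a ^ P.p) ^ 2 + P.a ^ P.p * P.b ^ P.p + (P.b ^ P.p) ^ 2)
            - P.a ^ P.p * (P.a ^ P.p + P.b ^ P.p) := by ring
        rw [this]
        exact dvd_sub hc4 (Dvd.dvd.mul_right hA _)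
      exact hab hA (hqi.dvd_of_dvd_pow hB2)
    · have hB := hqi.dvd_of_dvd_pow h
      have hA2 : (q : ℤ) ∣ (P.a ^ P.p) ^ 2 := by
        have : (P.a ^ P.p) ^ 2 = ((P.a ^ P.p) ^ 2 + P.a ^ P.p * P.b ^ P.p + (P.b ^ P.p) ^ 2)
            - P.b ^ P.p * (P.a ^ P.p + P.b ^ P.p) := by ring
        rw [this]
        exact dvd_sub hc4 (Dvd.dvd.mul_right hB _)
      exact hab (hqi.dvd_of_dvd_pow hA2) hB
  · have hCd := hqi.dvd_of_dvd_pow h
    rw [hC] at hCd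
    have hAB : (q : ℤ) ∣ P.a ^ P.p * P.b ^ P.p := by
      have : P.a ^ P.p * P.b ^ P.p = (P.a ^ P.p + P.b ^ P.p) * (P.a ^ P.p + P.b ^ P.p)
          - ((P.a ^ P.p) ^ 2 + P.a ^ P.p * P.b ^ P.p + (P.b ^ P.p) ^ 2) := by ring
      rw [this]
      exact dvd_sub (Dvd.dvd.mul_right hCd _) hc4
    rcases hqi.dvd_or_dvd hAB with hA | hB
    · have hB : (q : ℤ) ∣ P.b ^ P.p := by
        have : P.b ^ P.p = (P.a ^ P.p + P.b ^ P.p) - P.a ^ P.p := by ring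
        rw [this]; exact dvd_sub hCd hA
      exact hab hA hB
    · have hA : (q : ℤ) ∣ P.a ^ P.p := by
        have : P.a ^ P.p = (P.a ^ P.p + P.b ^ P.p) - P.b ^ P.p := by ring
        rw [this]; exact dvd_sub hCd hB
      exact hab hA hB

/-- The wiring: modularity of semistable integral models implies modularity of the Frey curve. -/
theorem frey_isModular_of_semistable
    (H : ∀ W : WeierstrassCurve ℤ, W.Δ ≠ 0 → W.IsSemistableModel →
      (W.map (Int.castRingHom ℚ)).IsModular)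
    (P : FreyPackage) : P.freyCurve.IsModular := by
  have := H P.freyCurveInt (freyCurveInt_Δ_ne_zero P) (freyCurveInt_isSemistableModel P)
  rwa [map_freyCurveInt] at this

end Fermat.Agent.S04.Wiring
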